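/-
P-CFT / B-BRIDGE (row 528, sub-lead helper58): INTERFACES for the level dictionary.

The prelude speaks of functions on `G_ℚ` which are right-invariant under `F.fixingSubgroup` for a
finite extension `F/ℚ` unramified outside `S`; the frame (helper13) speaks of functions which are
right-invariant under a level `N ∈ (globalLevelSys S).sets`.  The three statements below say that
the two families of subgroups are cofinal in each other (globally and locally).
-/
import Fermat.Agent.H13.Cft.Interfaces

set_option autoImplicit false

open CategoryTheory groupCohomology ExtCitation

namespace Fermat.Agent.H58.Cft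

open Fermat.Agent.H13.Cft

/-- **[BR-L1]** Every finite extension unramified outside `S` is fixed by a level of `G_{ℚ,S}`
(take the fixing subgroup of the normal closure: the family of inertia groups outside `S` is
stable under conjugation). -/
def LevelOfFieldStatement : Prop :=
  ∀ (S : Finset Nat.Primes) (F : IntermediateField ℚ (AlgebraicClosure ℚ)),
    F.IsUnramifiedOutside S → ∃ N ∈ (globalLevelSys S).sets, N ≤ F.fixingSubgroup

/-- **[BR-L2]** Every level of `G_{ℚ,S}` contains the fixing subgroup of a finite extension
unramified outside `S` (take the fixed field of the level: a level is open, hence closed, and the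
Galois correspondence `InfiniteGalois.fixingSubgroup_fixedField` applies). -/
def FieldOfLevelStatement : Prop :=
  ∀ (S : Finset Nat.Primes) (N : Subgroup GQ), N ∈ (globalLevelSys S).sets →
    ∃ F : IntermediateField ℚ (AlgebraicClosure ℚ),
      F.IsUnramifiedOutside S ∧ F.fixingSubgroup ≤ N

/-- **[BR-L3]** Local version of `[BR-L1]`: for every group `Γ` over `G_ℚ` and every finite
extension `F/ℚ` the preimage of `F.fixingSubgroup` contains a level of `pullbackLevelSys r`
(the preimage of the fixing subgroup of the normal closure of `F`). -/
def LocalLevelOfFieldStatement : Prop :=
  ∀ {Γ : Type} [Group Γ] (r : Γ →* GQ) (F : IntermediateField ℚ (AlgebraicClosure ℚ)),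
    FiniteDimensional ℚ F → ∃ N ∈ (pullbackLevelSys r).sets, N ≤ F.fixingSubgroup.comap r

end Fermat.Agent.H58.Cft
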