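/-
P-CFT / B-BRIDGE (row 528, helper58): the COCHAIN DICTIONARY.

Level cochains of the frame (`lvlCochains 𝒰 M n`, functions on `Fin n → G`) versus functions on
`G`, `G × G` which are right-invariant under a level, in degrees `0`, `1`, `2`; then the
arithmetic instances: `globalLevelSys S` versus the prelude's `IsLevelConstantS₁/₂ S`, and
`pullbackLevelSys r` versus the prelude's `IsLevelConstant₁ r`.
-/
import Fermat.Agent.H58.Cft.BridgeInterfaces

set_option autoImplicit false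

open CategoryTheory groupCohomology ExtCitation

namespace Fermat.Agent.H58.Cft

open Fermat.Agent.H13.Cft

universe u

section General

variable {k G : Type u} [CommRing k] [Group G] (M : Rep.{u} k G)

/-- `C⁰ → M`. -/
noncomputable abbrev tr₀ : ((Fin 0 → G) → M) →ₗ[k] M := (cochainsIso₀ M).hom.hom

/-- `C¹ → Fun(G, M)`. -/
noncomputable abbrev tr₁ : ((Fin 1 → G) → M) →ₗ[k] (G → M) := (cochainsIso₁ M).hom.hom

/-- `C² → Fun(G × G, M)`. -/
noncomputable abbrev tr₂ : ((Fin 2 → G) → M) →ₗ[k] (G × G → M) := (cochainsIso₂ M).hom.hom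

/-- `C³ → Fun(G × G × G, M)`. -/
noncomputable abbrev tr₃ : ((Fin 3 → G) → M) →ₗ[k] (G × G × G → M) := (cochainsIso₃ M).hom.hom

lemma tr₀_apply (x : (Fin 0 → G) → M) : tr₀ M x = x default := rfl

lemma tr₁_apply (x : (Fin 1 → G) → M) (g : G) : tr₁ M x g = x (fun _ => g) := rfl

lemma tr₂_apply (x : (Fin 2 → G) → M) (g g' : G) : tr₂ M x (g, g') = x ![g, g'] := rfl

lemma tr₀_bijective : Function.Bijective (tr₀ M) :=
  ConcreteCategory.bijective_of_isIso (cochainsIso₀ M).hom

lemma tr₁_bijective : Function.Bijective (tr₁ M) :=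
  ConcreteCategory.bijective_of_isIso (cochainsIso₁ M).hom

lemma tr₂_bijective : Function.Bijective (tr₂ M) :=
  ConcreteCategory.bijective_of_isIso (cochainsIso₂ M).hom

lemma tr₃_bijective : Function.Bijective (tr₃ M) :=
  ConcreteCategory.bijective_of_isIso (cochainsIso₃ M).hom

lemma tr₁_d (x : (Fin 0 → G) → M) :
    tr₁ M ((inhomogeneousCochains.d M 0).hom x) = (d₀₁ M).hom (tr₀ M x) := by
  have h := comp_d₀₁_eq M
  rw [inhomogeneousCochains.d_def] at h
  have := congrArg (fun φ => (ModuleCat.Hom.hom φ) x) h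
  simpa using this.symm

lemma tr₂_d (x : (Fin 1 → G) → M) :
    tr₂ M ((inhomogeneousCochains.d M 1).hom x) = (d₁₂ M).hom (tr₁ M x) := by
  have h := comp_d₁₂_eq M
  rw [inhomogeneousCochains.d_def] at h
  have := congrArg (fun φ => (ModuleCat.Hom.hom φ) x) h
  simpa using this.symm

lemma tr₃_d (x : (Fin 2 → G) → M) :
    tr₃ M ((inhomogeneousCochains.d M 2).hom x) = (d₂₃ M).hom (tr₂ M x) := by
  have h := comp_d₂₃_eq M
  rw [inhomogeneousCochains.d_def] at h
  have := congrArg (fun φ => (ModuleCat.Hom.hom φ) x) h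
  simpa using this.symm

/-- A `2`-cochain is closed iff its translation is a `2`-cocycle. -/
lemma d_eq_zero_iff_mem_cocycles₂ (x : (Fin 2 → G) → M) :
    (inhomogeneousCochains.d M 2).hom x = 0 ↔ tr₂ M x ∈ cocycles₂ M := by
  rw [cocycles₂, LinearMap.mem_ker, ← tr₃_d]
  constructor
  · intro h
    rw [h, map_zero]
  · intro h
    exact (tr₃_bijective M).1 (by rw [h, map_zero])

/-- A `1`-cochain is closed iff its translation is a `1`-cocycle. -/
lemma d_eq_zero_iff_mem_cocycles₁ (x : (Fin 1 → G) → M) :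
    (inhomogeneousCochains.d M 1).hom x = 0 ↔ tr₁ M x ∈ cocycles₁ M := by
  rw [cocycles₁, LinearMap.mem_ker, ← tr₂_d]
  constructor
  · intro h
    rw [h, map_zero]
  · intro h
    exact (tr₂_bijective M).1 (by rw [h, map_zero])

variable {M}

/-- Level condition in degree `1` in terms of the translated function. -/
lemma isLevelAt_one_iff (N : Subgroup G) (x : (Fin 1 → G) → M) :
    IsLevelAt N M x ↔
      (∀ g s, s ∈ N → tr₁ M x (g * s) = tr₁ M x g) ∧
        ∀ g, ∀ s ∈ N, M.ρ s (tr₁ M x g) = tr₁ M x g := by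
  constructor
  · rintro ⟨h1, h2⟩
    refine ⟨fun g s hs => ?_, fun g s hs => h2 _ s hs⟩
    have := h1 (fun _ => g) (fun _ => s) (fun _ => hs)
    exact this
  · rintro ⟨h1, h2⟩
    have hx : ∀ g : Fin 1 → G, x g = tr₁ M x (g 0) := fun g => by
      rw [tr₁_apply]
      congr 1
      funext i
      rw [Subsingleton.elim i 0]
    refine ⟨fun g v hv => ?_, fun g s hs => ?_⟩
    · rw [hx, hx g, Pi.mul_apply]
      exact h1 _ _ (hv 0)
    · rw [hx]
      exact h2 _ s hs

/-- Level condition in degree `2` in terms of the translated function. -/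
lemma isLevelAt_two_iff (N : Subgroup G) (x : (Fin 2 → G) → M) :
    IsLevelAt N M x ↔
      (∀ g g' s s', s ∈ N → s' ∈ N → tr₂ M x (g * s, g' * s') = tr₂ M x (g, g')) ∧
        ∀ g, ∀ s ∈ N, M.ρ s (tr₂ M x g) = tr₂ M x g := by
  have hx : ∀ g : Fin 2 → G, x g = tr₂ M x (g 0, g 1) := fun g => by
    rw [tr₂_apply]
    congr 1
    funext i
    fin_cases i <;> rfl
  constructor
  · rintro ⟨h1, h2⟩
    refine ⟨fun g g' s s' hs hs' => ?_, fun g s hs => h2 _ s hs⟩
    have := h1 ![g, g'] ![s, s'] (fun i => by fin_cases i <;> simpa)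
    rw [hx, hx ![g, g']] at this
    simpa using this
  · rintro ⟨h1, h2⟩
    refine ⟨fun g v hv => ?_, fun g s hs => ?_⟩
    · rw [hx, hx g, Pi.mul_apply, Pi.mul_apply]
      exact h1 _ _ _ _ (hv 0) (hv 1)
    · rw [hx]
      exact h2 _ s hs

variable (𝒰 : LevelSys G)

/-- For coefficients trivialised by a level, every `0`-cochain is a level cochain. -/
lemma mem_lvlCochains_zero (hM : IsTrivialisedBy 𝒰 M) (x : (Fin 0 → G) → M) :
    x ∈ lvlCochains 𝒰 M 0 := by
  obtain ⟨N, hN, h⟩ := hM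
  refine ⟨N, hN, fun g v _ => ?_, fun g s hs => ?_⟩
  · rw [Subsingleton.elim (g * v) g]
  · rw [h s hs]
    rfl

/-- For coefficients trivialised by a level: level `1`-cochains are the functions on `G` which
are right-invariant under a level. -/
lemma mem_lvlCochains_one_iff (hM : IsTrivialisedBy 𝒰 M) (x : (Fin 1 → G) → M) :
    x ∈ lvlCochains 𝒰 M 1 ↔ ∃ N ∈ 𝒰.sets, ∀ g s, s ∈ N → tr₁ M x (g * s) = tr₁ M x g := by
  constructor
  · rintro ⟨N, hN, h⟩
    exact ⟨N, hN, ((isLevelAt_one_iff N x).1 h).1⟩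
  · rintro ⟨N, hN, h⟩
    obtain ⟨N₀, hN₀, h₀⟩ := hM
    obtain ⟨N', hN', hle⟩ := 𝒰.directed N hN N₀ hN₀
    refine ⟨N', hN', (isLevelAt_one_iff N' x).2 ⟨fun g s hs => ?_, fun g s hs => ?_⟩⟩
    · exact h g s (hle.trans inf_le_left hs)
    · rw [h₀ s (hle.trans inf_le_right hs)]
      rfl

/-- For coefficients trivialised by a level: level `2`-cochains are the functions on `G × G`
which are right-invariant under a level. -/
lemma mem_lvlCochains_two_iff (hM : IsTrivialisedBy 𝒰 M) (x : (Fin 2 → G) → M) :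
    x ∈ lvlCochains 𝒰 M 2 ↔ ∃ N ∈ 𝒰.sets, ∀ g g' s s', s ∈ N → s' ∈ N →
      tr₂ M x (g * s, g' * s') = tr₂ M x (g, g') := by
  constructor
  · rintro ⟨N, hN, h⟩
    exact ⟨N, hN, ((isLevelAt_two_iff N x).1 h).1⟩
  · rintro ⟨N, hN, h⟩
    obtain ⟨N₀, hN₀, h₀⟩ := hM
    obtain ⟨N', hN', hle⟩ := 𝒰.directed N hN N₀ hN₀
    refine ⟨N', hN', (isLevelAt_two_iff N' x).2 ⟨fun g g' s s' hs hs' => ?_, fun g s hs => ?_⟩⟩
    · exact h g g' s s' (hle.trans inf_le_left hs) (hle.trans inf_le_left hs')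
    · rw [h₀ s (hle.trans inf_le_right hs)]
      rfl

end General

/-! ### The arithmetic level systems -/

section Arith

variable {k : Type} [CommRing k]

/-- Global dictionary in degree `1`. -/
lemma mem_lvlCochains_global_one_iff (hL1 : LevelOfFieldStatement) (hL2 : FieldOfLevelStatement)
    (S : Finset Nat.Primes) {M : Rep k GQ} (hM : IsTrivialisedBy (globalLevelSys S) M)
    (x : (Fin 1 → GQ) → M) :
    x ∈ lvlCochains (globalLevelSys S) M 1 ↔ IsLevelConstantS₁ S (tr₁ M x) := by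
  rw [mem_lvlCochains_one_iff _ hM]
  constructor
  · rintro ⟨N, hN, h⟩
    obtain ⟨F, hF, hle⟩ := hL2 S N hN
    exact ⟨F, hF, fun g s hs => h g s (hle hs)⟩
  · rintro ⟨F, hF, h⟩
    obtain ⟨N, hN, hle⟩ := hL1 S F hF
    exact ⟨N, hN, fun g s hs => h g s (hle hs)⟩

/-- Global dictionary in degree `2`. -/
lemma mem_lvlCochains_global_two_iff (hL1 : LevelOfFieldStatement) (hL2 : FieldOfLevelStatement)
    (S : Finset Nat.Primes) {M : Rep k GQ} (hM : IsTrivialisedBy (globalLevelSys S) M)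
    (x : (Fin 2 → GQ) → M) :
    x ∈ lvlCochains (globalLevelSys S) M 2 ↔ IsLevelConstantS₂ S (tr₂ M x) := by
  rw [mem_lvlCochains_two_iff _ hM]
  constructor
  · rintro ⟨N, hN, h⟩
    obtain ⟨F, hF, hle⟩ := hL2 S N hN
    exact ⟨F, hF, fun g g' s s' hs hs' => h g g' s s' (hle hs) (hle hs')⟩
  · rintro ⟨F, hF, h⟩
    obtain ⟨N, hN, hle⟩ := hL1 S F hF
    exact ⟨N, hN, fun g g' s s' hs hs' => h g g' s s' (hle hs) (hle hs')⟩

/-- Restrictions of globally trivialised coefficients are trivialised by a local level. -/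
lemma isTrivialisedBy_res (S : Finset Nat.Primes) {M : Rep k GQ}
    (hM : IsTrivialisedBy (globalLevelSys S) M) {Γ : Type} [Group Γ] (r : Γ →* GQ) :
    IsTrivialisedBy (pullbackLevelSys r) (Rep.res r M) := by
  obtain ⟨N₀, hN₀, h₀⟩ := hM
  obtain ⟨N', hN', hle⟩ := pullback_compat_global S r N₀ hN₀
  refine ⟨N', hN', fun s hs => ?_⟩
  have : r s ∈ N₀ := hle hs
  exact h₀ (r s) this

/-- Local dictionary in degree `1`. -/
lemma mem_lvlCochains_local_one_iff (hL3 : LocalLevelOfFieldStatement)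
    (S : Finset Nat.Primes) {M : Rep k GQ} (hM : IsTrivialisedBy (globalLevelSys S) M)
    {Γ : Type} [Group Γ] (r : Γ →* GQ) (x : (Fin 1 → Γ) → Rep.res r M) :
    x ∈ lvlCochains (pullbackLevelSys r) (Rep.res r M) 1 ↔
      IsLevelConstant₁ r (tr₁ (Rep.res r M) x) := by
  rw [mem_lvlCochains_one_iff _ (isTrivialisedBy_res S hM r)]
  constructor
  · rintro ⟨N, ⟨-, -, F, hF, hle⟩, h⟩
    exact ⟨F, hF, fun g s hs => h g s (hle hs)⟩
  · rintro ⟨F, hF, h⟩
    obtain ⟨N, hN, hle⟩ := hL3 r F hF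
    exact ⟨N, hN, fun g s hs => h g s (hle hs)⟩

end Arith

end Fermat.Agent.H58.Cft
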