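/-
P-CFT / B-BRIDGE (row 528, helper58): the BRIDGE between the frame and the prelude.

`bridge_of_api` : `BridgeStatement` from `HomologyApiStatement` (FR-API) and the level dictionary
`[BR-L1]`, `[BR-L2]`, `[BR-L3]` of `BridgeInterfaces`.
-/
import Fermat.Agent.H58.Cft.BridgeCochains
import Fermat.Agent.H12.CftArchimedean

set_option autoImplicit false

open CategoryTheory groupCohomology ExtCitation

namespace Fermat.Agent.H58.Cft

open Fermat.Agent.H13.Cft

universe u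

section Abstract

variable {k : Type*} [CommRing k] {Z H Q : Type*} [AddCommGroup Z] [Module k Z]
    [AddCommGroup H] [Module k H] [AddCommGroup Q] [Module k Q]

/-- Abstract descent of a linear map through a surjective additive "class" map. -/
theorem exists_linearMap_of_mk
    (mk : Z → H) (hsurj : Function.Surjective mk)
    (hadd : ∀ x y, mk (x + y) = mk x + mk y) (hsmul : ∀ (c : k) x, mk (c • x) = c • mk x)
    (ψ : Z →ₗ[k] Q) (h0 : ∀ x, mk x = 0 → ψ x = 0) :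
    ∃ Φ : H →ₗ[k] Q, ∀ x, Φ (mk x) = ψ x := by
  let π : Z →ₗ[k] H := { toFun := mk, map_add' := hadd, map_smul' := hsmul }
  have hπ : LinearMap.range π = ⊤ := LinearMap.range_eq_top.2 hsurj
  refine ⟨((LinearMap.ker π).liftQ ψ (fun x hx => h0 x hx)).comp
    (π.quotKerEquivOfSurjective hsurj).symm.toLinearMap, fun x => ?_⟩
  have h1 : (π.quotKerEquivOfSurjective hsurj).symm (mk x) = Submodule.Quotient.mk x := by
    rw [LinearEquiv.symm_apply_eq]
    rfl
  simp only [LinearMap.comp_apply, LinearEquiv.coe_coe, h1]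
  exact Submodule.liftQ_apply _ _ _

/-- Abstract descent: linear equivalence. -/
theorem exists_linearEquiv_of_mk
    (mk : Z → H) (hsurj : Function.Surjective mk)
    (hadd : ∀ x y, mk (x + y) = mk x + mk y) (hsmul : ∀ (c : k) x, mk (c • x) = c • mk x)
    (ψ : Z →ₗ[k] Q) (hψ : Function.Surjective ψ) (h0 : ∀ x, mk x = 0 ↔ ψ x = 0) :
    ∃ e : H ≃ₗ[k] Q, ∀ x, e (mk x) = ψ x := by
  obtain ⟨Φ, hΦ⟩ := exists_linearMap_of_mk mk hsurj hadd hsmul ψ (fun x hx => (h0 x).1 hx)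
  have hinj : Function.Injective Φ := by
    rw [← LinearMap.ker_eq_bot, LinearMap.ker_eq_bot']
    intro z hz
    obtain ⟨x, rfl⟩ := hsurj z
    rw [hΦ] at hz
    exact (h0 x).2 hz
  have hsur : Function.Surjective Φ := by
    intro q
    obtain ⟨x, rfl⟩ := hψ q
    exact ⟨mk x, hΦ x⟩
  have hbij : Function.Bijective Φ := ⟨hinj, hsur⟩
  exact ⟨LinearEquiv.ofBijective Φ hbij, fun x => by
    rw [LinearEquiv.ofBijective_apply]
    exact hΦ x⟩

end Abstract

section Complexes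

variable {k G : Type u} [CommRing k] [Group G]

lemma lvlComplex_d_apply (𝒰 : LevelSys G) (M : Rep.{u} k G) (n : ℕ) (x : lvlCochains 𝒰 M n) :
    ((lvlComplex 𝒰 M).d n (n + 1)).hom x = lvlD 𝒰 M n x := by
  simp [CochainComplex.of.d]

lemma locComplex_d_apply (𝔄 : ArithDatum k G) (M : Rep.{u} k G) (n : ℕ)
    (y : ∀ v, lvlCochains (𝔄.lvlv v) (Rep.res (𝔄.loc v) M) n) (v : 𝔄.ι) :
    (((locComplex 𝔄 M).d n (n + 1)).hom y : ∀ v, lvlCochains (𝔄.lvlv v) (Rep.res (𝔄.loc v) M) (n + 1)) v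
      = lvlD (𝔄.lvlv v) (Rep.res (𝔄.loc v) M) n (y v) := by
  simp [locComplex, CochainComplex.of.d]
  rfl

lemma resTot_f_apply (𝔄 : ArithDatum k G) (M : Rep.{u} k G) (n : ℕ)
    (x : lvlCochains 𝔄.lvl M n) (v : 𝔄.ι) :
    (((resTot 𝔄 M).f n).hom x : ∀ v, lvlCochains (𝔄.lvlv v) (Rep.res (𝔄.loc v) M) n) v
      = ((lvlRes (𝔄.loc v) (𝔄.compat v) M).f n).hom x := rfl

/-- Exactness in the product complex is componentwise. -/
lemma exists_locComplex_d_eq_iff (𝔄 : ArithDatum k G) (M : Rep.{u} k G) (n : ℕ)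
    (x : lvlCochains 𝔄.lvl M (n + 1)) :
    (∃ y : (locComplex 𝔄 M).X n,
        ((locComplex 𝔄 M).d n (n + 1)).hom y = ((resTot 𝔄 M).f (n + 1)).hom x) ↔
      ∀ v : 𝔄.ι, ∃ y : lvlCochains (𝔄.lvlv v) (Rep.res (𝔄.loc v) M) n,
        lvlD (𝔄.lvlv v) (Rep.res (𝔄.loc v) M) n y
          = ((lvlRes (𝔄.loc v) (𝔄.compat v) M).f (n + 1)).hom x := by
  constructor
  · rintro ⟨y, hy⟩ v
    let y' : ∀ v, lvlCochains (𝔄.lvlv v) (Rep.res (𝔄.loc v) M) n := y
    refine ⟨y' v, ?_⟩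
    have h1 := locComplex_d_apply 𝔄 M n y' v
    rw [← h1]
    exact congrFun hy v
  · intro h
    choose y hy using h
    refine ⟨(y : ∀ v, lvlCochains (𝔄.lvlv v) (Rep.res (𝔄.loc v) M) n), ?_⟩
    funext v
    exact (locComplex_d_apply 𝔄 M n y v).trans (hy v)

/-- The image of a closed cochain under the total localisation map is closed. -/
lemma resTot_closed (𝔄 : ArithDatum k G) (M : Rep.{u} k G) (n : ℕ)
    (x : (lvlComplex 𝔄.lvl M).X n) (hx : ((lvlComplex 𝔄.lvl M).d n (n + 1)).hom x = 0) :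
    ((locComplex 𝔄 M).d n (n + 1)).hom (((resTot 𝔄 M).f n).hom x) = 0 := by
  have h := (resTot 𝔄 M).comm n (n + 1)
  have h2 := congrArg (fun φ => (ModuleCat.Hom.hom φ) x) h
  simp only [ModuleCat.hom_comp, LinearMap.comp_apply] at h2
  rw [h2, hx, map_zero]

/-- Membership in the frame Tate–Shafarevich group, in terms of cochains. -/
lemma hMk_mem_frameSha_iff (hapi : HomologyApiStatement.{u}) (𝔄 : ArithDatum k G)
    (M : Rep.{u} k G) (n : ℕ) (x : lvlCochains 𝔄.lvl M (n + 1))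
    (hx : ((lvlComplex 𝔄.lvl M).d (n + 1) (n + 1 + 1)).hom x = 0) :
    hMk (lvlComplex 𝔄.lvl M) (n + 1) x hx ∈ frameSha 𝔄 M (n + 1) ↔
      ∀ v : 𝔄.ι, ∃ y : lvlCochains (𝔄.lvlv v) (Rep.res (𝔄.loc v) M) n,
        lvlD (𝔄.lvlv v) (Rep.res (𝔄.loc v) M) n y
          = ((lvlRes (𝔄.loc v) (𝔄.compat v) M).f (n + 1)).hom x := by
  obtain ⟨-, -, -, -, -, hnat⟩ := hapi (lvlComplex 𝔄.lvl M) (n + 1)
  obtain ⟨-, -, -, hzero, -, -⟩ := hapi (locComplex 𝔄 M) n
  rw [frameSha, LinearMap.mem_ker,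
    hnat (locComplex 𝔄 M) (resTot 𝔄 M) x hx (resTot_closed 𝔄 M (n + 1) x hx)]
  exact (hzero _ _).trans (exists_locComplex_d_eq_iff 𝔄 M n x)

end Complexes

section Global

variable {k : Type} [CommRing k] (S : Finset Nat.Primes) (M : Rep k GQ)

/-- The level `2`-cocycle of the prelude attached to a closed level `2`-cochain of the frame. -/
lemma tr₂_mem_levelCocyclesS₂ (hL2 : FieldOfLevelStatement) (hL1 : LevelOfFieldStatement)
    (hM : IsTrivialisedBy (globalLevelSys S) M)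
    (x : lvlCochains (globalLevelSys S) M 2)
    (hx : ((lvlComplex (globalLevelSys S) M).d 2 (2 + 1)).hom x = 0) :
    tr₂ M x.1 ∈ levelCocyclesS₂ S M := by
  refine (mem_levelCocyclesS₂_iff S M _).2
    ⟨?_, (mem_lvlCochains_global_two_iff hL1 hL2 S hM x.1).1 x.2⟩
  rw [← d_eq_zero_iff_mem_cocycles₂]
  rw [lvlComplex_d_apply] at hx
  have := congrArg Subtype.val hx
  simpa using this

/-- The map from closed level `2`-cochains of the frame to the prelude `H²`. -/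
noncomputable def psi₂ (hL2 : FieldOfLevelStatement) (hL1 : LevelOfFieldStatement)
    (hM : IsTrivialisedBy (globalLevelSys S) M) :
    LinearMap.ker ((lvlComplex (globalLevelSys S) M).d 2 (2 + 1)).hom →ₗ[k] continuousH2S S M :=
  (continuousH2Sπ S M).comp
    (LinearMap.codRestrict (levelCocyclesS₂ S M)
      ((tr₂ M).comp ((lvlCochains (globalLevelSys S) M 2).subtype.comp
        (LinearMap.ker ((lvlComplex (globalLevelSys S) M).d 2 (2 + 1)).hom).subtype))
      (fun x => tr₂_mem_levelCocyclesS₂ S M hL2 hL1 hM x.1 x.2))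

lemma psi₂_apply (hL2 : FieldOfLevelStatement) (hL1 : LevelOfFieldStatement)
    (hM : IsTrivialisedBy (globalLevelSys S) M)
    (x : lvlCochains (globalLevelSys S) M 2)
    (hx : ((lvlComplex (globalLevelSys S) M).d 2 (2 + 1)).hom x = 0) :
    psi₂ S M hL2 hL1 hM ⟨x, hx⟩ =
      continuousH2Sπ S M ⟨tr₂ M x.1, tr₂_mem_levelCocyclesS₂ S M hL2 hL1 hM x hx⟩ := rfl

lemma psi₂_surjective (hL2 : FieldOfLevelStatement) (hL1 : LevelOfFieldStatement)
    (hM : IsTrivialisedBy (globalLevelSys S) M) :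
    Function.Surjective (psi₂ S M hL2 hL1 hM) := by
  intro c
  obtain ⟨f, rfl⟩ := Submodule.mkQ_surjective _ c
  obtain ⟨x₀, hx₀⟩ := (tr₂_bijective M).2 f.1
  have hf := (mem_levelCocyclesS₂_iff S M _).1 f.2
  have hx₀mem : x₀ ∈ lvlCochains (globalLevelSys S) M 2 := by
    rw [mem_lvlCochains_global_two_iff hL1 hL2 S hM, hx₀]
    exact hf.2
  have hdx₀ : (inhomogeneousCochains.d M 2).hom x₀ = 0 := by
    rw [d_eq_zero_iff_mem_cocycles₂, hx₀]
    exact hf.1
  have hx : ((lvlComplex (globalLevelSys S) M).d 2 (2 + 1)).hom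
      (⟨x₀, hx₀mem⟩ : lvlCochains (globalLevelSys S) M 2) = 0 := by
    rw [lvlComplex_d_apply]
    apply Subtype.ext
    exact hdx₀
  refine ⟨⟨⟨x₀, hx₀mem⟩, hx⟩, ?_⟩
  rw [psi₂_apply]
  congr 1
  exact Subtype.ext hx₀

lemma psi₂_eq_zero_iff (hL2 : FieldOfLevelStatement) (hL1 : LevelOfFieldStatement)
    (hM : IsTrivialisedBy (globalLevelSys S) M)
    (x : lvlCochains (globalLevelSys S) M 2)
    (hx : ((lvlComplex (globalLevelSys S) M).d 2 (2 + 1)).hom x = 0) :
    psi₂ S M hL2 hL1 hM ⟨x, hx⟩ = 0 ↔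
      ∃ y : lvlCochains (globalLevelSys S) M 1, lvlD (globalLevelSys S) M 1 y = x := by
  rw [psi₂_apply, continuousH2Sπ_eq_zero_iff, mem_levelCoboundariesS₂_iff]
  constructor
  · rintro ⟨y', hy', hd⟩
    obtain ⟨y₀, hy₀⟩ := (tr₁_bijective M).2 y'
    have hy₀mem : y₀ ∈ lvlCochains (globalLevelSys S) M 1 := by
      rw [mem_lvlCochains_global_one_iff hL1 hL2 S hM, hy₀]
      exact hy'
    refine ⟨⟨y₀, hy₀mem⟩, Subtype.ext ?_⟩
    apply (tr₂_bijective M).1
    rw [lvlD_coe, tr₂_d, hy₀]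
    exact hd
  · rintro ⟨y, rfl⟩
    refine ⟨tr₁ M y.1, (mem_lvlCochains_global_one_iff hL1 hL2 S hM y.1).1 y.2, ?_⟩
    rw [← tr₂_d]
    rfl

/-- **The bridge in degree `2`**: frame `H²` versus the prelude `continuousH2S`. -/
theorem exists_e₂ (hapi : HomologyApiStatement.{0}) (hL2 : FieldOfLevelStatement)
    (hL1 : LevelOfFieldStatement) (hM : IsTrivialisedBy (globalLevelSys S) M) :
    ∃ e : (lvlComplex (globalLevelSys S) M).homology 2 ≃ₗ[k] continuousH2S S M,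
      ∀ (x : lvlCochains (globalLevelSys S) M 2)
        (hx : ((lvlComplex (globalLevelSys S) M).d 2 (2 + 1)).hom x = 0),
        e (hMk (lvlComplex (globalLevelSys S) M) 2 x hx) = psi₂ S M hL2 hL1 hM ⟨x, hx⟩ := by
  obtain ⟨hsurj, hadd, hsmul, -, -, -⟩ := hapi (lvlComplex (globalLevelSys S) M) 2
  obtain ⟨-, -, -, hzero, -, -⟩ := hapi (lvlComplex (globalLevelSys S) M) 1
  obtain ⟨e, he⟩ := exists_linearEquiv_of_mk (k := k)
    (fun z : LinearMap.ker ((lvlComplex (globalLevelSys S) M).d 2 (2 + 1)).hom =>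
      hMk (lvlComplex (globalLevelSys S) M) 2 z.1 (LinearMap.mem_ker.1 z.2))
    (fun z => by
      obtain ⟨x, hx, rfl⟩ := hsurj z
      exact ⟨⟨x, hx⟩, rfl⟩)
    (fun x y => hadd x.1 y.1 _ _ _)
    (fun c x => hsmul c x.1 _ _)
    (psi₂ S M hL2 hL1 hM) (psi₂_surjective S M hL2 hL1 hM)
    (fun z => by
      obtain ⟨x, hx⟩ := z
      have hx' : ((lvlComplex (globalLevelSys S) M).d 2 (2 + 1)).hom x = 0 := LinearMap.mem_ker.1 hx
      refine Iff.trans ?_ (psi₂_eq_zero_iff S M hL2 hL1 hM x hx').symm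
      refine (hzero x hx').trans ?_
      constructor
      · rintro ⟨y, hy⟩
        refine ⟨y, ?_⟩
        rw [← lvlComplex_d_apply]
        exact hy
      · rintro ⟨y, hy⟩
        refine ⟨y, ?_⟩
        rw [← hy, ← lvlComplex_d_apply])
  exact ⟨e, fun x hx => he ⟨x, hx⟩⟩

/-! #### Degree `1` -/

lemma tr₁_mem_cocycles₁ (x : lvlCochains (globalLevelSys S) M 1)
    (hx : ((lvlComplex (globalLevelSys S) M).d 1 (1 + 1)).hom x = 0) :
    tr₁ M x.1 ∈ cocycles₁ M := by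
  rw [← d_eq_zero_iff_mem_cocycles₁]
  rw [lvlComplex_d_apply] at hx
  have := congrArg Subtype.val hx
  simpa using this

/-- The map from closed level `1`-cochains of the frame to Mathlib's `H¹`. -/
noncomputable def psi₁ :
    LinearMap.ker ((lvlComplex (globalLevelSys S) M).d 1 (1 + 1)).hom →ₗ[k] H1 M :=
  (H1π M).hom.comp
    (LinearMap.codRestrict (cocycles₁ M)
      ((tr₁ M).comp ((lvlCochains (globalLevelSys S) M 1).subtype.comp
        (LinearMap.ker ((lvlComplex (globalLevelSys S) M).d 1 (1 + 1)).hom).subtype))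
      (fun x => tr₁_mem_cocycles₁ S M x.1 (LinearMap.mem_ker.1 x.2)))

lemma psi₁_apply (x : lvlCochains (globalLevelSys S) M 1)
    (hx : ((lvlComplex (globalLevelSys S) M).d 1 (1 + 1)).hom x = 0) :
    psi₁ S M ⟨x, hx⟩ = (H1π M).hom ⟨tr₁ M x.1, tr₁_mem_cocycles₁ S M x hx⟩ := rfl

lemma psi₁_eq_zero_iff (hM : IsTrivialisedBy (globalLevelSys S) M)
    (x : lvlCochains (globalLevelSys S) M 1)
    (hx : ((lvlComplex (globalLevelSys S) M).d 1 (1 + 1)).hom x = 0) :
    psi₁ S M ⟨x, hx⟩ = 0 ↔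
      ∃ y : lvlCochains (globalLevelSys S) M 0, lvlD (globalLevelSys S) M 0 y = x := by
  rw [psi₁_apply]
  erw [H1π_eq_zero_iff]
  constructor
  · rintro ⟨m, hm⟩
    obtain ⟨y₀, hy₀⟩ := (tr₀_bijective M).2 m
    refine ⟨⟨y₀, mem_lvlCochains_zero _ hM y₀⟩, Subtype.ext ?_⟩
    apply (tr₁_bijective M).1
    rw [lvlD_coe, tr₁_d, hy₀]
    exact hm
  · rintro ⟨y, rfl⟩
    refine ⟨tr₀ M y.1, ?_⟩
    rw [← tr₁_d]
    rfl

/-- Classes of level cocycles: the image of `psi₁` is `continuousH1S`. -/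
lemma psi₁_mem_continuousH1S (hL2 : FieldOfLevelStatement) (hL1 : LevelOfFieldStatement)
    (hM : IsTrivialisedBy (globalLevelSys S) M)
    (x : lvlCochains (globalLevelSys S) M 1)
    (hx : ((lvlComplex (globalLevelSys S) M).d 1 (1 + 1)).hom x = 0) :
    psi₁ S M ⟨x, hx⟩ ∈ continuousH1S S M := by
  rw [mem_continuousH1S_iff]
  exact ⟨⟨tr₁ M x.1, tr₁_mem_cocycles₁ S M x hx⟩,
    (mem_lvlCochains_global_one_iff hL1 hL2 S hM x.1).1 x.2, rfl⟩

lemma exists_psi₁_eq (hL2 : FieldOfLevelStatement) (hL1 : LevelOfFieldStatement)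
    (hM : IsTrivialisedBy (globalLevelSys S) M) (c : cocycles₁ M)
    (hc : IsLevelConstantS₁ S c) :
    ∃ (x : lvlCochains (globalLevelSys S) M 1)
      (hx : ((lvlComplex (globalLevelSys S) M).d 1 (1 + 1)).hom x = 0),
      tr₁ M x.1 = c ∧ psi₁ S M ⟨x, hx⟩ = (H1π M).hom c := by
  obtain ⟨x₀, hx₀⟩ := (tr₁_bijective M).2 (c : GQ → M)
  have hx₀mem : x₀ ∈ lvlCochains (globalLevelSys S) M 1 := by
    rw [mem_lvlCochains_global_one_iff hL1 hL2 S hM, hx₀]
    exact hc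
  have hdx₀ : (inhomogeneousCochains.d M 1).hom x₀ = 0 := by
    rw [d_eq_zero_iff_mem_cocycles₁, hx₀]
    exact c.2
  have hx : ((lvlComplex (globalLevelSys S) M).d 1 (1 + 1)).hom
      (⟨x₀, hx₀mem⟩ : lvlCochains (globalLevelSys S) M 1) = 0 := by
    rw [lvlComplex_d_apply]
    apply Subtype.ext
    exact hdx₀
  refine ⟨⟨x₀, hx₀mem⟩, hx, hx₀, ?_⟩
  rw [psi₁_apply]
  congr 1
  exact Subtype.ext hx₀

/-- **The bridge in degree `1`**: an injective map from frame `H¹` to Mathlib's `H¹`. -/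
theorem exists_Φ₁ (hapi : HomologyApiStatement.{0})
    (hM : IsTrivialisedBy (globalLevelSys S) M) :
    ∃ Φ : (lvlComplex (globalLevelSys S) M).homology 1 →ₗ[k] H1 M,
      Function.Injective Φ ∧
      ∀ (x : lvlCochains (globalLevelSys S) M 1)
        (hx : ((lvlComplex (globalLevelSys S) M).d 1 (1 + 1)).hom x = 0),
        Φ (hMk (lvlComplex (globalLevelSys S) M) 1 x hx) = psi₁ S M ⟨x, hx⟩ := by
  obtain ⟨hsurj, hadd, hsmul, -, -, -⟩ := hapi (lvlComplex (globalLevelSys S) M) 1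
  obtain ⟨-, -, -, hzero, -, -⟩ := hapi (lvlComplex (globalLevelSys S) M) 0
  have hz : ∀ (x : lvlCochains (globalLevelSys S) M 1)
      (hx : ((lvlComplex (globalLevelSys S) M).d 1 (1 + 1)).hom x = 0),
      hMk (lvlComplex (globalLevelSys S) M) 1 x hx = 0 ↔ psi₁ S M ⟨x, hx⟩ = 0 := by
    intro x hx
    refine Iff.trans ?_ (psi₁_eq_zero_iff S M hM x hx).symm
    refine (hzero x hx).trans ?_
    constructor
    · rintro ⟨y, hy⟩
      refine ⟨y, ?_⟩
      rw [← lvlComplex_d_apply]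
      exact hy
    · rintro ⟨y, hy⟩
      refine ⟨y, ?_⟩
      rw [← hy, ← lvlComplex_d_apply]
  obtain ⟨Φ, hΦ⟩ := exists_linearMap_of_mk (k := k)
    (fun z : LinearMap.ker ((lvlComplex (globalLevelSys S) M).d 1 (1 + 1)).hom =>
      hMk (lvlComplex (globalLevelSys S) M) 1 z.1 (LinearMap.mem_ker.1 z.2))
    (fun z => by
      obtain ⟨x, hx, rfl⟩ := hsurj z
      exact ⟨⟨x, hx⟩, rfl⟩)
    (fun x y => hadd x.1 y.1 _ _ _)
    (fun c x => hsmul c x.1 _ _)
    (psi₁ S M)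
    (fun z hz' => (hz z.1 (LinearMap.mem_ker.1 z.2)).1 hz')
  refine ⟨Φ, ?_, fun x hx => hΦ ⟨x, hx⟩⟩
  rw [← LinearMap.ker_eq_bot, LinearMap.ker_eq_bot']
  intro z hz'
  obtain ⟨x, hx, rfl⟩ := hsurj z
  have h1 := hΦ ⟨x, hx⟩
  rw [(hz x hx)]
  rw [← h1]
  exact hz'

end Global

section Local

variable {k : Type} [CommRing k] (S : Finset Nat.Primes) (M : Rep k GQ)
  {Γ : Type} [Group Γ] (r : Γ →* GQ)

lemma tr₂_lvlRes (x : lvlCochains (globalLevelSys S) M 2) :
    tr₂ (Rep.res r M) (((lvlRes r (pullback_compat_global S r) M).f 2).hom x).1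
      = (tr₂ M x.1) ∘ Prod.map r r := by
  funext ⟨g, g'⟩
  rw [tr₂_apply, lvlCochainsMap_f_coe, Function.comp_apply, Prod.map_apply, tr₂_apply]
  have : (r ∘ ![g, g'] : Fin 2 → GQ) = ![r g, r g'] := by
    funext i
    fin_cases i <;> rfl
  rw [this]
  rfl

lemma tr₁_lvlRes (x : lvlCochains (globalLevelSys S) M 1) :
    tr₁ (Rep.res r M) (((lvlRes r (pullback_compat_global S r) M).f 1).hom x).1
      = (tr₁ M x.1) ∘ r := by
  funext g
  rw [tr₁_apply, lvlCochainsMap_f_coe, Function.comp_apply, tr₁_apply]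
  rfl

/-- Local triviality of a level `2`-cochain, frame form versus prelude form. -/
lemma local_two_iff (hL3 : LocalLevelOfFieldStatement)
    (hM : IsTrivialisedBy (globalLevelSys S) M) (x : lvlCochains (globalLevelSys S) M 2) :
    (∃ y : lvlCochains (pullbackLevelSys r) (Rep.res r M) 1,
        lvlD (pullbackLevelSys r) (Rep.res r M) 1 y
          = ((lvlRes r (pullback_compat_global S r) M).f 2).hom x) ↔
      ∃ y' : Γ → M, IsLevelConstant₁ r y' ∧
        (d₁₂ (Rep.res r M)).hom y' = (tr₂ M x.1) ∘ Prod.map r r := by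
  constructor
  · rintro ⟨y, hy⟩
    refine ⟨tr₁ (Rep.res r M) y.1, (mem_lvlCochains_local_one_iff hL3 S hM r y.1).1 y.2, ?_⟩
    rw [← tr₂_d, ← tr₂_lvlRes, ← hy]
    rfl
  · rintro ⟨y', hy', hd⟩
    obtain ⟨y₀, hy₀⟩ := (tr₁_bijective (Rep.res r M)).2 y'
    have hy₀mem : y₀ ∈ lvlCochains (pullbackLevelSys r) (Rep.res r M) 1 := by
      rw [mem_lvlCochains_local_one_iff hL3 S hM r, hy₀]
      exact hy'
    refine ⟨⟨y₀, hy₀mem⟩, Subtype.ext ?_⟩
    apply (tr₂_bijective (Rep.res r M)).1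
    rw [lvlD_coe, tr₂_d, hy₀, hd, tr₂_lvlRes]

/-- Local triviality of a level `1`-cochain, frame form versus coboundaries. -/
lemma local_one_iff (hM : IsTrivialisedBy (globalLevelSys S) M)
    (x : lvlCochains (globalLevelSys S) M 1) :
    (∃ y : lvlCochains (pullbackLevelSys r) (Rep.res r M) 0,
        lvlD (pullbackLevelSys r) (Rep.res r M) 0 y
          = ((lvlRes r (pullback_compat_global S r) M).f 1).hom x) ↔
      (tr₁ M x.1) ∘ r ∈ coboundaries₁ (Rep.res r M) := by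
  constructor
  · rintro ⟨y, hy⟩
    refine ⟨tr₀ (Rep.res r M) y.1, ?_⟩
    rw [← tr₁_d, ← tr₁_lvlRes, ← hy]
    rfl
  · rintro ⟨m, hm⟩
    obtain ⟨y₀, hy₀⟩ := (tr₀_bijective (Rep.res r M)).2 m
    refine ⟨⟨y₀, mem_lvlCochains_zero _ (isTrivialisedBy_res S hM r) y₀⟩, Subtype.ext ?_⟩
    apply (tr₁_bijective (Rep.res r M)).1
    rw [lvlD_coe, tr₁_d, hy₀, tr₁_lvlRes]
    exact hm

/-- Vanishing of the prelude's local restriction in degree `2`. -/
lemma locRes₂S_eq_zero_iff (c : levelCocyclesS₂ S M) :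
    locRes₂S S M r (continuousH2Sπ S M c) = 0 ↔
      ∃ y' : Γ → M, IsLevelConstant₁ r y' ∧
        (d₁₂ (Rep.res r M)).hom y' = (c.1 : GQ × GQ → M) ∘ Prod.map r r := by
  have h1 : locRes₂S S M r (continuousH2Sπ S M c) =
      continuousH2π r (Rep.res r M)
        (levelCocycles₂Map (rH := MonoidHom.id _) (rG := r) r (fun _ => rfl)
          (LinearMap.id : M →ₗ[k] Rep.res r M) (fun _ _ => rfl)
          (levelCocyclesS₂ToLevelCocycles₂ S M c)) := rfl
  rw [h1, continuousH2π_eq_zero_iff, mem_levelCoboundaries₂_iff]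
  rfl

/-- Vanishing of the restriction of a class in `H¹`. -/
lemma map_H1π_eq_zero_iff (c : cocycles₁ M) :
    (groupCohomology.map r (𝟙 (Rep.res r M)) 1).hom ((H1π M).hom c) = 0 ↔
      (c : GQ → M) ∘ r ∈ coboundaries₁ (Rep.res r M) := by
  have h := H1π_comp_map (A := M) (B := Rep.res r M) r (𝟙 (Rep.res r M))
  have h2 := congrArg (fun φ => (ModuleCat.Hom.hom φ) c) h
  simp only [ModuleCat.hom_comp, LinearMap.comp_apply] at h2
  rw [h2]
  erw [H1π_eq_zero_iff]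
  rfl

end Local

section Final

variable (p : ℕ) [Fact p.Prime] (S : Finset Nat.Primes)
  (hχ : ∃ N ∈ (globalLevelSys S).sets, ∀ s ∈ N, cycloChar p s = 1) (M : Rep (ZMod p) GQ)

/-- Frame `Ш²` membership for the arithmetic datum, prelude form at each prime of `S`. -/
lemma hMk_mem_frameSha_two_iff (hapi : HomologyApiStatement.{0})
    (hL3 : LocalLevelOfFieldStatement) (hM : IsTrivialisedBy (globalLevelSys S) M)
    (x : lvlCochains (globalLevelSys S) M 2)
    (hx : ((lvlComplex (globalLevelSys S) M).d 2 (2 + 1)).hom x = 0) :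
    hMk (lvlComplex (arithDatumQ p S hχ).lvl M) 2 x hx ∈ frameSha (arithDatumQ p S hχ) M 2 ↔
      ∀ q : ↥S, ∃ y' : primeLocalGaloisGroup q.1 → M,
        IsLevelConstant₁ (primeLocalToGlobal q.1) y' ∧
        (d₁₂ (Rep.res (primeLocalToGlobal q.1) M)).hom y'
          = (tr₂ M x.1) ∘ Prod.map (primeLocalToGlobal q.1) (primeLocalToGlobal q.1) := by
  refine (hMk_mem_frameSha_iff hapi (arithDatumQ p S hχ) M 1 x hx).trans ?_
  exact forall_congr' fun q => local_two_iff S M (primeLocalToGlobal q.1) hL3 hM x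

/-- Frame `Ш¹` membership for the arithmetic datum. -/
lemma hMk_mem_frameSha_one_iff (hapi : HomologyApiStatement.{0})
    (hM : IsTrivialisedBy (globalLevelSys S) M)
    (x : lvlCochains (globalLevelSys S) M 1)
    (hx : ((lvlComplex (globalLevelSys S) M).d 1 (1 + 1)).hom x = 0) :
    hMk (lvlComplex (arithDatumQ p S hχ).lvl M) 1 x hx ∈ frameSha (arithDatumQ p S hχ) M 1 ↔
      ∀ q : ↥S, (tr₁ M x.1) ∘ (primeLocalToGlobal q.1)
        ∈ coboundaries₁ (Rep.res (primeLocalToGlobal q.1) M) := by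
  refine (hMk_mem_frameSha_iff hapi (arithDatumQ p S hχ) M 0 x hx).trans ?_
  exact forall_congr' fun q => local_one_iff S M (primeLocalToGlobal q.1) hM x

/-- Prelude `Ш²` membership of a class, `p` odd. -/
lemma continuousH2Sπ_mem_sha₂_iff (hp : p ≠ 2) (c : levelCocyclesS₂ S M) :
    continuousH2Sπ S M c ∈ sha₂ S M ↔
      ∀ q : ↥S, ∃ y' : primeLocalGaloisGroup q.1 → M,
        IsLevelConstant₁ (primeLocalToGlobal q.1) y' ∧
        (d₁₂ (Rep.res (primeLocalToGlobal q.1) M)).hom y'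
          = (c.1 : GQ × GQ → M) ∘ Prod.map (primeLocalToGlobal q.1) (primeLocalToGlobal q.1) := by
  rw [Fermat.Agent.H12.cft_mem_sha₂_iff p hp]
  exact forall_congr' fun q => locRes₂S_eq_zero_iff S M (primeLocalToGlobal q.1) c

/-- Prelude `Ш¹` membership of a class, `p` odd. -/
lemma H1π_mem_sha₁_iff (hp : p ≠ 2) (c : cocycles₁ M) :
    (H1π M).hom c ∈ sha₁ S M ↔ (H1π M).hom c ∈ continuousH1S S M ∧
      ∀ q : ↥S, (c : GQ → M) ∘ (primeLocalToGlobal q.1)
        ∈ coboundaries₁ (Rep.res (primeLocalToGlobal q.1) M) := by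
  rw [Fermat.Agent.H12.cft_mem_sha₁_iff p hp]
  refine and_congr_right fun _ => ?_
  exact forall_congr' fun q => map_H1π_eq_zero_iff M (primeLocalToGlobal q.1) c

/-- **[B-BRIDGE]** from the homology API and the level dictionary. -/
theorem bridge_of_api (hapi : HomologyApiStatement.{0}) (hL1 : LevelOfFieldStatement)
    (hL2 : FieldOfLevelStatement) (hL3 : LocalLevelOfFieldStatement) : BridgeStatement := by
  intro p _ hp S hχ M hM
  have hM' : IsTrivialisedBy (globalLevelSys S) M := hM.2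
  constructor
  · obtain ⟨e, he⟩ : ∃ e : (lvlComplex (arithDatumQ p S hχ).lvl M).homology 2 ≃ₗ[ZMod p]
        continuousH2S S M,
        ∀ (x : lvlCochains (globalLevelSys S) M 2)
          (hx : ((lvlComplex (globalLevelSys S) M).d 2 (2 + 1)).hom x = 0),
          e (hMk (lvlComplex (arithDatumQ p S hχ).lvl M) 2 x hx) =
            continuousH2Sπ S M ⟨tr₂ M x.1, tr₂_mem_levelCocyclesS₂ S M hL2 hL1 hM' x hx⟩ :=
      exists_e₂ S M hapi hL2 hL1 hM'
    obtain ⟨hsurj, -, -, -, -, -⟩ := hapi (lvlComplex (arithDatumQ p S hχ).lvl M) 2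
    refine ⟨e, le_antisymm ?_ ?_⟩
    · rintro w ⟨z, hz, rfl⟩
      obtain ⟨x, hx, rfl⟩ := hsurj z
      have h1 := (hMk_mem_frameSha_two_iff p S hχ M hapi hL3 hM' x hx).1 hz
      have h2 := (continuousH2Sπ_mem_sha₂_iff p S M hp
        ⟨tr₂ M x.1, tr₂_mem_levelCocyclesS₂ S M hL2 hL1 hM' x hx⟩).2 h1
      have h3 := he x hx
      exact h3 ▸ h2
    · intro w hw
      obtain ⟨z, rfl⟩ := psi₂_surjective S M hL2 hL1 hM' w
      obtain ⟨x, hx⟩ := z
      have hx' : ((lvlComplex (globalLevelSys S) M).d 2 (2 + 1)).hom x = 0 :=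
        LinearMap.mem_ker.1 hx
      have hw' : continuousH2Sπ S M ⟨tr₂ M x.1, tr₂_mem_levelCocyclesS₂ S M hL2 hL1 hM' x hx'⟩
          ∈ sha₂ S M := hw
      have h1 := (continuousH2Sπ_mem_sha₂_iff p S M hp _).1 hw'
      exact ⟨hMk (lvlComplex (arithDatumQ p S hχ).lvl M) 2 x hx',
        (hMk_mem_frameSha_two_iff p S hχ M hapi hL3 hM' x hx').2 h1, he x hx'⟩
  · obtain ⟨Φ, hinj, hΦ⟩ : ∃ Φ : (lvlComplex (arithDatumQ p S hχ).lvl M).homology 1 →ₗ[ZMod p]
        H1 M, Function.Injective Φ ∧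
        ∀ (x : lvlCochains (globalLevelSys S) M 1)
          (hx : ((lvlComplex (globalLevelSys S) M).d 1 (1 + 1)).hom x = 0),
          Φ (hMk (lvlComplex (arithDatumQ p S hχ).lvl M) 1 x hx) =
            (H1π M).hom ⟨tr₁ M x.1, tr₁_mem_cocycles₁ S M x hx⟩ :=
      exists_Φ₁ S M hapi hM'
    obtain ⟨hsurj, -, -, -, -, -⟩ := hapi (lvlComplex (arithDatumQ p S hχ).lvl M) 1
    have hmap : (frameSha (arithDatumQ p S hχ) M 1).map Φ = sha₁ S M := by
      refine le_antisymm ?_ ?_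
      · rintro w ⟨z, hz, rfl⟩
        obtain ⟨x, hx, rfl⟩ := hsurj z
        have h1 := (hMk_mem_frameSha_one_iff p S hχ M hapi hM' x hx).1 hz
        have h2 : (H1π M).hom ⟨tr₁ M x.1, tr₁_mem_cocycles₁ S M x hx⟩ ∈ sha₁ S M :=
          (H1π_mem_sha₁_iff p S M hp _).2
            ⟨psi₁_mem_continuousH1S S M hL2 hL1 hM' x hx, h1⟩
        have h3 := hΦ x hx
        exact h3 ▸ h2
      · intro w hw
        have hw1 : w ∈ continuousH1S S M := hw.1
        obtain ⟨c, hc, rfl⟩ := (mem_continuousH1S_iff S M w).1 hw1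
        obtain ⟨x, hx, hxc, hpsi⟩ := exists_psi₁_eq S M hL2 hL1 hM' c hc
        have h1 := ((H1π_mem_sha₁_iff p S M hp c).1 hw).2
        refine ⟨hMk (lvlComplex (arithDatumQ p S hχ).lvl M) 1 x hx, ?_, (hΦ x hx).trans hpsi⟩
        refine (hMk_mem_frameSha_one_iff p S hχ M hapi hM' x hx).2 fun q => ?_
        rw [hxc]
        exact h1 q
    exact ⟨(Submodule.equivMapOfInjective Φ hinj (frameSha (arithDatumQ p S hχ) M 1)).trans
      (LinearEquiv.ofEq _ _ hmap)⟩

end Final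

end Fermat.Agent.H58.Cft
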