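/-
P-CFT / B-BRIDGE (row 528, helper58): `BridgeStatement`, UNCONDITIONAL.

Inputs: `Fermat.Agent.H19.homologyApi` (FR-API, helper19), the level dictionary
`Fermat.Agent.H21.Cft.levelOfFieldStatement` / `fieldOfLevelStatement` /
`localLevelOfFieldStatement` (BR-L, helper21) and `bridge_of_api`.
-/
import Fermat.Agent.H58.Cft.Bridge
import Fermat.Agent.H19.Cft.HomologyApi
import Fermat.Agent.H21.Cft.BridgeLevelsFinal

set_option autoImplicit false

namespace Fermat.Agent.H58.Cft

/-- **[B-BRIDGE]** frame `H²` / `Ш²` / `Ш¹` of `arithDatumQ` versus the prelude's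
`continuousH2S` / `sha₂` / `sha₁`. -/
theorem bridgeStatement : Fermat.Agent.H13.Cft.BridgeStatement :=
  bridge_of_api Fermat.Agent.H19.homologyApi Fermat.Agent.H21.Cft.levelOfFieldStatement
    Fermat.Agent.H21.Cft.fieldOfLevelStatement Fermat.Agent.H21.Cft.localLevelOfFieldStatement

end Fermat.Agent.H58.Cft
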