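/-
P-CFT, row 803 SD-LM (helper58): `LTopMonoStatement`.

On a permutation module `P = k[Γ/V]` (`V` `χ`-open) the target `H²(dualCx2 C(P^*(χ)))` of `λ²` is
nonzero (it is the dual of the invariants of `P^*(χ)`, which contain the functional
`e_(gV) ↦ χ(g)`), hence a surjective `λ²` from a space of dimension `≤ 1` is injective.
-/
import Fermat.Agent.H13.Cft.WaistV2
import Fermat.Agent.H19.Cft.HomologyApi
import Fermat.Agent.H59.ShapiroZero
import Fermat.Agent.H46.Cft.PermSelfDual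

set_option autoImplicit false
set_option linter.style.haveILetI false

universe u

open CategoryTheory groupCohomology

namespace Fermat.Agent.H58.Cft

open Fermat.Agent.H13.Cft Fermat.Agent.H19

noncomputable section

section General

variable {k : Type u} [Field k]

/-- A surjective linear map from a space of dimension `≤ 1` onto a nonzero space is injective. -/
theorem ltm_injective_of_surjective {A B : Type*} [AddCommGroup A] [Module k A]
    [AddCommGroup B] [Module k B] [Module.Finite k A] [Nontrivial B] (f : A →ₗ[k] B)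
    (hf : Function.Surjective f) (hA : Module.finrank k A ≤ 1) : Function.Injective f := by
  haveI : Module.Finite k B := Module.Finite.of_surjective f hf
  have hB : 0 < Module.finrank k B := Module.finrank_pos
  have hrn := f.finrank_range_add_finrank_ker
  have hr : Module.finrank k (LinearMap.range f) = Module.finrank k B := by
    rw [LinearMap.range_eq_top.mpr hf, finrank_top]
  have hk : Module.finrank k (LinearMap.ker f) = 0 := by omega
  rw [← LinearMap.ker_eq_bot]
  exact Submodule.finrank_eq_zero.mp hk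

theorem ltm_dualCx2_d_two (K : CochainComplex (ModuleCat.{u} k) ℕ) :
    (dualCx2 K).d 2 3 = 0 :=
  CochainComplex.of_d (dualX2 K) (dualD2 K) 2

theorem ltm_dualCx2_d_one (K : CochainComplex (ModuleCat.{u} k) ℕ) :
    (dualCx2 K).d 1 2 = dualD2 K 1 :=
  CochainComplex.of_d (dualX2 K) (dualD2 K) 1

/-- `H²(dualCx2 K) ≠ 0` if `K` has a nonzero `0`-cocycle. -/
theorem ltm_nontrivial_dual_top (K : CochainComplex (ModuleCat.{u} k) ℕ) (a : K.X 0)
    (ha : (K.d 0 1).hom a = 0) (ha0 : a ≠ 0) : Nontrivial ((dualCx2 K).homology 2) := by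
  obtain ⟨φ, hφ⟩ : ∃ φ : Module.Dual k (K.X 0), φ a ≠ 0 := by
    by_contra hcon
    push Not at hcon
    exact ha0 ((Module.forall_dual_apply_eq_zero_iff k a).mp hcon)
  let x : (dualCx2 K).X 2 := φ
  have hx : ((dualCx2 K).d 2 3).hom x = 0 := by
    rw [ltm_dualCx2_d_two]; rfl
  refine ⟨⟨hMk (dualCx2 K) 2 x hx, 0, ?_⟩⟩
  intro h0
  obtain ⟨y, hy⟩ := (hapi_hMk_succ_eq_zero_iff (dualCx2 K) 1 x hx).mp h0
  rw [ltm_dualCx2_d_one] at hy
  apply hφ
  let y' : Module.Dual k (K.X 1) := y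
  have h1 : (Module.Dual.transpose (K.d 0 1).hom) y' = φ := hy
  rw [← h1]
  show y' ((K.d 0 1).hom a) = 0
  rw [ha, map_zero]

end General

section Perm

variable {k Γ : Type u} [Field k] [Group Γ] (χ : Γ →* kˣ) (V : Subgroup Γ)
  (h : ∀ u ∈ V, χ u = 1)

/-- The invariant functional `e_(gV) ↦ χ(g)` on `k[Γ/V]`. -/
def ltmFunctional : Module.Dual k (MonoidAlgebra k (Γ ⧸ V)) :=
  (MonoidAlgebra.basis (Γ ⧸ V) k).constr k
    (fun x => (Fermat.Agent.H46.Cft.chiCoset χ V h x : k))

theorem ltmFunctional_single (x : Γ ⧸ V) :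
    ltmFunctional χ V h (MonoidAlgebra.single x 1) =
      (Fermat.Agent.H46.Cft.chiCoset χ V h x : k) := by
  unfold ltmFunctional
  rw [← MonoidAlgebra.basis_apply, Module.Basis.constr_basis]

theorem ltmFunctional_ne_zero : ltmFunctional χ V h ≠ 0 := by
  intro h0
  have h1 := ltmFunctional_single χ V h (QuotientGroup.mk (1 : Γ))
  rw [h0, Fermat.Agent.H46.Cft.chiCoset_mk, map_one] at h1
  simp at h1

theorem ltmFunctional_invariant (g : Γ) :
    ((Rep.ofMulAction k Γ (Γ ⧸ V)).dualTwist χ).ρ g (ltmFunctional χ V h) =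
      ltmFunctional χ V h := by
  refine (MonoidAlgebra.basis (Γ ⧸ V) k).ext fun x => ?_
  rw [MonoidAlgebra.basis_apply]
  show (χ g : k) • (ltmFunctional χ V h)
      (Representation.ofMulAction k Γ (Γ ⧸ V) g⁻¹ (MonoidAlgebra.single x 1)) = _
  rw [Representation.ofMulAction_single, ltmFunctional_single, ltmFunctional_single,
    Fermat.Agent.H46.Cft.chiCoset_smul, smul_eq_mul, Units.val_mul, ← mul_assoc,
    ← Units.val_mul, ← map_mul, mul_inv_cancel, map_one, Units.val_one, one_mul]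

end Perm

/-- **[L-M2]** (row 803). -/
theorem lTopMono : LTopMonoStatement := by
  intro p _ Γ _ 𝒱 χ Tv hcv V hV hepi hfin hrank
  obtain ⟨N, hN⟩ := 𝒱.nonempty
  have hinv := ltmFunctional_invariant χ V hV.2
  let a : lvlCochains 𝒱 ((Rep.ofMulAction (ZMod p) Γ (Γ ⧸ V)).dualTwist χ) 0 :=
    ⟨fun _ => ltmFunctional χ V hV.2, N, hN, fun _ _ _ => rfl, fun _ s _ => hinv s⟩
  have ha : lvlD 𝒱 ((Rep.ofMulAction (ZMod p) Γ (Γ ⧸ V)).dualTwist χ) 0 a = 0 :=
    Fermat.Agent.H59.Shap.sz_lvlD_eq_zero_of_invariant 𝒱 _ a (fun _ g => hinv g)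
  have ha0 : a ≠ 0 := by
    intro h0
    have := congrArg (fun b : lvlCochains 𝒱
      ((Rep.ofMulAction (ZMod p) Γ (Γ ⧸ V)).dualTwist χ) 0 => b.1 (fun i => i.elim0)) h0
    exact ltmFunctional_ne_zero χ V hV.2 this
  have hd : ((lvlComplex 𝒱 ((Rep.ofMulAction (ZMod p) Γ (Γ ⧸ V)).dualTwist χ)).d 0 1).hom a
      = 0 := by
    have : (lvlComplex 𝒱 ((Rep.ofMulAction (ZMod p) Γ (Γ ⧸ V)).dualTwist χ)).d 0 1 =
        ModuleCat.ofHom (lvlD 𝒱 ((Rep.ofMulAction (ZMod p) Γ (Γ ⧸ V)).dualTwist χ) 0) :=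
      CochainComplex.of_d (fun n => ModuleCat.of (ZMod p)
          (lvlCochains 𝒱 ((Rep.ofMulAction (ZMod p) Γ (Γ ⧸ V)).dualTwist χ) n))
        (fun n => ModuleCat.ofHom
          (lvlD 𝒱 ((Rep.ofMulAction (ZMod p) Γ (Γ ⧸ V)).dualTwist χ) n)) 0
    rw [this]
    exact ha
  haveI := ltm_nontrivial_dual_top
    (lvlComplex 𝒱 ((Rep.ofMulAction (ZMod p) Γ (Γ ⧸ V)).dualTwist χ)) a hd ha0
  rw [ModuleCat.mono_iff_injective]
  rw [ModuleCat.epi_iff_surjective] at hepi
  haveI := hfin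
  exact ltm_injective_of_surjective _ hepi hrank

end

end Fermat.Agent.H58.Cft
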